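import Mathlib
import Fermat.Agent.S26.SpecCube
import Fermat.Agent.S25.H567.GeomIntegral

/-!
# Row S26, block CUBE, leaf C4c (helper538): sums of irreducible closed subsets, chains

* `wellFoundedGT_irreducibleCloseds` (Mathlib only): strictly increasing chains of irreducible
  closed subsets of a locally noetherian scheme are finite (local rings have finite dimension);
* `c4cChain` : the same for an abelian variety;
* `c4cSum` : for an irreducible closed `B ∋ 0` in an abelian variety `A` and a pointed proper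
  integral `K`-scheme `ι : (C, c₀) ⟶ (A, 0)`, the image `B + ι(C)` of `pr₁⁻¹(B) ⊆ A ×_K C` under
  the addition is closed, irreducible, contains `B` and `ι(C)`, and each of its `K`-points is a
  sum of a `K`-point of `B` and the image of a `K`-point of `C`.

The statements are those of `Fermat/Agent/S26/C4/Spec.lean` (assembler helper478) with
`ptOf p = p.1 default` and `mapPt ι hι p = ⟨p.1 ≫ ι, _⟩` unfolded.
-/

set_option autoImplicit false
universe u

open CategoryTheory CategoryTheory.Limits AlgebraicGeometry NeronModelInfra GoodReductionJacobian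
  TopologicalSpace

namespace Fermat.Agent.S26.H538

/-! ### Chains -/

/-- Points of a locally noetherian scheme have finite codimension. -/
theorem coheight_lt_top (X : Scheme.{u}) [IsLocallyNoetherian X] (x : X) :
    Order.coheight x < ⊤ := by
  have h := ringKrullDim_stalk_eq_coheight x
  have h2 : ringKrullDim (X.presheaf.stalk x) < ⊤ := ringKrullDim_lt_top
  rw [h] at h2
  exact WithBot.coe_lt_coe.mp h2

/-- Strictly increasing chains of irreducible closed subsets of a locally noetherian scheme are
finite. -/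
theorem wellFoundedGT_irreducibleCloseds (X : Scheme.{u}) [IsLocallyNoetherian X] :
    WellFoundedGT (IrreducibleCloseds X) := by
  let e : IrreducibleCloseds X ≃o X := irreducibleSetEquivPoints
  let μ : IrreducibleCloseds X → ℕ := fun Z => (Order.coheight (e Z)).toNat
  have hμ : ∀ Z Z' : IrreducibleCloseds X, Z < Z' → μ Z' < μ Z := by
    intro Z Z' h
    have h1 : e Z < e Z' := e.lt_iff_lt.mpr h
    have h2 := Order.coheight_strictAnti h1 (coheight_lt_top X (e Z'))
    obtain ⟨a, ha⟩ := ENat.ne_top_iff_exists.mp (coheight_lt_top X (e Z)).ne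
    obtain ⟨b, hb⟩ := ENat.ne_top_iff_exists.mp (coheight_lt_top X (e Z')).ne
    simp only [μ, ← ha, ← hb, ENat.toNat_natCast]
    rw [← ha, ← hb] at h2
    exact_mod_cast h2
  refine ⟨Subrelation.wf (r := InvImage (· < ·) μ) ?_ (InvImage.wf μ wellFounded_lt)⟩
  intro Z' Z h
  exact hμ Z Z' h

variable {K : Type u} [Field K]

/-- An abelian variety is locally noetherian. -/
theorem isLocallyNoetherian (X : AbVar K) : IsLocallyNoetherian X.A := by
  have : IsProper X.str := X.bundle.proper
  exact LocallyOfFiniteType.isLocallyNoetherian X.str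

/-- **C4c, chains.** -/
theorem c4cChain (X : AbVar K) : WellFoundedGT (IrreducibleCloseds X.A) := by
  have := isLocallyNoetherian X
  exact wellFoundedGT_irreducibleCloseds X.A

/-! ### The sum morphism `A ×_K C ⟶ A` -/

section Sum

variable (X : AbVar K) {C : Scheme.{u}} (c : C ⟶ Spec (CommRingCat.of K)) (ι : C ⟶ X.A)
  (hι : ι ≫ X.str = c)

/-- The structure map of `A ×_K C`. -/
noncomputable abbrev sumStr : pullback X.str c ⟶ Spec (CommRingCat.of K) :=
  pullback.fst X.str c ≫ X.str

/-- The first projection as an `A ×_K C`-point of `A`. -/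
noncomputable def sumPtA : SchemeHomOver (sumStr X c) X.str := ⟨pullback.fst X.str c, rfl⟩

/-- `ι ∘ pr₂` as an `A ×_K C`-point of `A`. -/
noncomputable def sumPtC : SchemeHomOver (sumStr X c) X.str :=
  ⟨pullback.snd X.str c ≫ ι, by rw [Category.assoc, hι, ← pullback.condition]⟩

/-- The morphism `(a, p) ↦ a + ι(p)`. -/
noncomputable def sumHom : pullback X.str c ⟶ X.A :=
  (X.law.mul (sumStr X c) (sumPtA X c) (sumPtC X c ι hι)).1

theorem sumHom_str : sumHom X c ι hι ≫ X.str = sumStr X c :=
  (X.law.mul (sumStr X c) (sumPtA X c) (sumPtC X c ι hι)).2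

/-- Functoriality: the composite of a `T`-point `(a, p)` of `A ×_K C` with the sum morphism is
`a + ι(p)`. -/
theorem comp_sumHom {T : Scheme.{u}} (t : T ⟶ Spec (CommRingCat.of K)) (a : SchemeHomOver t X.str)
    (p : SchemeHomOver t c) (h : a.1 ≫ X.str = p.1 ≫ c) :
    pullback.lift a.1 p.1 h ≫ sumHom X c ι hι =
      (X.law.mul t a ⟨p.1 ≫ ι, by rw [Category.assoc, hι, p.2]⟩).1 := by
  have hψ : pullback.lift a.1 p.1 h ≫ sumStr X c = t := by
    rw [sumStr, pullback.lift_fst_assoc, a.2]
  have h1 := X.law.mul_natural (sumStr X c) t (pullback.lift a.1 p.1 h) hψ (sumPtA X c)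
    (sumPtC X c ι hι)
  have h2 : schemeHomOverComp (pullback.lift a.1 p.1 h) hψ (sumPtA X c) = a :=
    Subtype.ext (pullback.lift_fst _ _ _)
  have h3 : schemeHomOverComp (pullback.lift a.1 p.1 h) hψ (sumPtC X c ι hι) =
      ⟨p.1 ≫ ι, by rw [Category.assoc, hι, p.2]⟩ :=
    Subtype.ext (by
      show pullback.lift a.1 p.1 h ≫ pullback.snd X.str c ≫ ι = p.1 ≫ ι
      rw [pullback.lift_snd_assoc])
  rw [h2, h3] at h1
  rw [← h1]
  rfl

end Sum

/-! ### C4c, sums -/

section Main

variable (X : AbVar K) {C : Scheme.{u}} (c : C ⟶ Spec (CommRingCat.of K))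
  (ι : C ⟶ X.A) (hι : ι ≫ X.str = c)

/-- The sum morphism is proper when `C` is proper. -/
theorem isProper_sumHom [IsProper c] : IsProper (sumHom X c ι hι) := by
  have : IsProper X.str := X.bundle.proper
  have : IsProper (sumHom X c ι hι ≫ X.str) := by
    rw [sumHom_str]
    infer_instance
  exact IsProper.of_comp (sumHom X c ι hι) X.str

/-- The preimage in `A ×_K C` of an irreducible subset of `A` is irreducible. -/
theorem isIrreducible_preimage_fst [IsAlgClosed K] [LocallyOfFiniteType c] [IsIntegral C] {B : Set X.A}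
    (hB : IsIrreducible B) : IsIrreducible (pullback.fst X.str c ⁻¹' B) := by
  have : IsLocallyNoetherian C := LocallyOfFiniteType.isLocallyNoetherian c
  have : GeometricallyIntegral c := Fermat.Agent.S25.H567.geometricallyIntegral_of_isAlgClosed c
  exact Scheme.Hom.isIrreducible_preimage (pullback.fst X.str c)
    (pullback.fst X.str c).isOpenMap hB

/-- The section `a ↦ (a, c₀)` composed with the sum is the identity. -/
theorem sectionA_sumHom (c₀ : KPt c) (hc₀ : c₀.1 ≫ ι = X.zero.1) :
    pullback.lift (𝟙 X.A) (X.str ≫ c₀.1)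
        (by rw [Category.id_comp, Category.assoc, c₀.2, Category.comp_id]) ≫
      sumHom X c ι hι = 𝟙 X.A := by
  have h := comp_sumHom X c ι hι X.str RelativeGroupLaw.idPoint
    ⟨X.str ≫ c₀.1, by rw [Category.assoc, c₀.2, Category.comp_id]⟩
    (by rw [Category.id_comp, Category.assoc, c₀.2, Category.comp_id])
  rw [h]
  have h1 : (⟨(X.str ≫ c₀.1) ≫ ι, by
      rw [Category.assoc, hι, Category.assoc, c₀.2, Category.comp_id]⟩ :
      SchemeHomOver X.str X.str) = X.law.one X.str := by
    rw [← X.law.one_natural (𝟙 _) X.str X.str (Category.comp_id _)]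
    apply Subtype.ext
    show (X.str ≫ c₀.1) ≫ ι = X.str ≫ (X.law.one (𝟙 _)).1
    rw [Category.assoc, hc₀]
    rfl
  rw [h1, X.law.mul_one]

/-- The section `p ↦ (0, p)` composed with the sum is `ι`. -/
theorem sectionC_sumHom :
    pullback.lift (c ≫ X.zero.1) (𝟙 C)
        (by rw [Category.assoc, X.zero.2, Category.comp_id, Category.id_comp]) ≫
      sumHom X c ι hι = ι := by
  have h := comp_sumHom X c ι hι c
    ⟨c ≫ X.zero.1, by rw [Category.assoc, X.zero.2, Category.comp_id]⟩
    ⟨𝟙 C, Category.id_comp c⟩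
    (by rw [Category.assoc, X.zero.2, Category.comp_id, Category.id_comp])
  rw [h]
  have h1 : (⟨c ≫ X.zero.1, by rw [Category.assoc, X.zero.2, Category.comp_id]⟩ :
      SchemeHomOver c X.str) = X.law.one c := by
    rw [← X.law.one_natural (𝟙 _) c c (Category.comp_id _)]
    rfl
  rw [h1, X.law.one_mul]
  exact Category.id_comp ι

/-- **C4c, sums.**  For an irreducible closed subset `B ∋ 0` of `A` and a pointed proper
integral `K`-scheme `ι : (C, c₀) → (A, 0)`, the set `B + ι(C)` is an irreducible closed subset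
containing `B` and `ι(C)`, all of whose `K`-points are sums of a `K`-point of `B` and the image
of a `K`-point of `C`. -/
theorem c4cSum [IsAlgClosed K] (B : Set X.A) (hBc : IsClosed B) (hBi : IsIrreducible B)
    (h0 : X.zero.1 (default : Spec (CommRingCat.of K)) ∈ B) [IsProper c] [IsIntegral C]
    (c₀ : KPt c) (hc₀ : c₀.1 ≫ ι = X.zero.1) :
    ∃ B' : Set X.A, IsClosed B' ∧ IsIrreducible B' ∧ B ⊆ B' ∧ Set.range ι ⊆ B' ∧
      ∀ x : X.Pt, x.1 (default : Spec (CommRingCat.of K)) ∈ B' →
        ∃ (b : X.Pt) (p : KPt c), b.1 (default : Spec (CommRingCat.of K)) ∈ B ∧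
          x = X.law.mul (𝟙 _) b ⟨p.1 ≫ ι, by rw [Category.assoc, hι, p.2]⟩ := by
  have hprop := isProper_sumHom X c ι hι
  have hX : IsProper X.str := X.bundle.proper
  set f := sumHom X c ι hι with hf
  set pr := pullback.fst X.str c with hpr
  have hPc : IsClosed (pr ⁻¹' B) := hBc.preimage pr.continuous
  refine ⟨f '' (pr ⁻¹' B), f.isClosedMap _ hPc,
    (isIrreducible_preimage_fst X c hBi).image _ f.continuous.continuousOn, ?_, ?_, ?_⟩
  · -- `B ⊆ B'`
    intro a ha
    let σ : X.A ⟶ pullback X.str c := pullback.lift (𝟙 X.A) (X.str ≫ c₀.1)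
      (by rw [Category.id_comp, Category.assoc, c₀.2, Category.comp_id])
    refine ⟨σ a, ?_, ?_⟩
    · show pr (σ a) ∈ B
      have : σ ≫ pr = 𝟙 X.A := pullback.lift_fst _ _ _
      rw [← Scheme.Hom.comp_apply, this]
      exact ha
    · have : σ ≫ f = 𝟙 X.A := sectionA_sumHom X c ι hι c₀ hc₀
      rw [← Scheme.Hom.comp_apply, this]
      rfl
  · -- `ι(C) ⊆ B'`
    rintro _ ⟨y, rfl⟩
    let τ : C ⟶ pullback X.str c := pullback.lift (c ≫ X.zero.1) (𝟙 C)
      (by rw [Category.assoc, X.zero.2, Category.comp_id, Category.id_comp])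
    refine ⟨τ y, ?_, ?_⟩
    · show pr (τ y) ∈ B
      have : τ ≫ pr = c ≫ X.zero.1 := pullback.lift_fst _ _ _
      rw [← Scheme.Hom.comp_apply, this, Scheme.Hom.comp_apply,
        Subsingleton.elim (c y) default]
      exact h0
    · have : τ ≫ f = ι := sectionC_sumHom X c ι hι
      rw [← Scheme.Hom.comp_apply, this]
  · -- `K`-points
    intro x hx
    have hcl : IsClosed ({x.1 (default : Spec (CommRingCat.of K))} : Set X.A) := by
      have h := (pointEquivClosedPoint X.str ⟨x.1, x.2⟩).2
      rw [mem_closedPoints_iff] at h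
      have e : (pointEquivClosedPoint X.str ⟨x.1, x.2⟩ : X.A) = x.1 default :=
        congrArg x.1 (Subsingleton.elim _ _)
      rwa [e] at h
    have hJ : JacobsonSpace ↥(pullback X.str c : Scheme.{u}) :=
      LocallyOfFiniteType.jacobsonSpace (sumStr X c)
    let F := pr ⁻¹' B ∩ f ⁻¹' {x.1 default}
    have hFc : IsClosed F := hPc.inter (hcl.preimage f.continuous)
    have hFn : F.Nonempty := by
      obtain ⟨q, hq1, hq2⟩ := hx
      exact ⟨q, hq1, hq2⟩
    have hFcp : (F ∩ closedPoints _).Nonempty := by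
      by_contra hemp
      rw [Set.not_nonempty_iff_eq_empty] at hemp
      have h := JacobsonSpace.closure_inter_closedPoints_eq_closure hFc.isLocallyClosed
      rw [hemp, closure_empty, hFc.closure_eq] at h
      exact hFn.ne_empty h.symm
    obtain ⟨q₀, ⟨hq1, hq2⟩, hq3⟩ := hFcp
    rw [mem_closedPoints_iff] at hq3
    let qK : Spec (CommRingCat.of K) ⟶ pullback X.str c :=
      pointOfClosedPoint (sumStr X c) q₀ hq3
    have hqK : qK ≫ sumStr X c = 𝟙 _ := pointOfClosedPoint_comp (sumStr X c) q₀ hq3
    have hqKa : ∀ a, qK a = q₀ := pointOfClosedPoint_apply (sumStr X c) q₀ hq3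
    have hb : (qK ≫ pr) ≫ X.str = 𝟙 _ := by rw [Category.assoc]; exact hqK
    have hp : (qK ≫ pullback.snd X.str c) ≫ c = 𝟙 _ := by
      rw [Category.assoc, ← pullback.condition]; exact hqK
    refine ⟨⟨qK ≫ pr, hb⟩, ⟨qK ≫ pullback.snd X.str c, hp⟩, ?_, ?_⟩
    · show (qK ≫ pr) default ∈ B
      rw [Scheme.Hom.comp_apply, hqKa]
      exact hq1
    · apply Subtype.ext
      have h := comp_sumHom X c ι hι (𝟙 _) ⟨qK ≫ pr, hb⟩ ⟨qK ≫ pullback.snd X.str c, hp⟩
        (by rw [hb, hp])
      have hlift : pullback.lift (qK ≫ pr) (qK ≫ pullback.snd X.str c) (by rw [hb, hp]) = qK := by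
        apply pullback.hom_ext
        · exact pullback.lift_fst _ _ _
        · exact pullback.lift_snd _ _ _
      rw [hlift] at h
      rw [← h]
      refine ext_of_apply_closedPoint_eq X.str x.2 ?_ ?_
      · rw [Category.assoc, sumHom_str]; exact hqK
      · have hq2' : f q₀ = x.1 default := hq2
        calc x.1 (IsLocalRing.closedPoint K)
            = x.1 default := congrArg x.1 (Subsingleton.elim _ _)
          _ = f q₀ := hq2'.symm
          _ = f (qK default) := by rw [hqKa]
          _ = (qK ≫ f) default := (Scheme.Hom.comp_apply qK f default).symm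
          _ = (qK ≫ f) (IsLocalRing.closedPoint K) :=
              congrArg (qK ≫ f) (Subsingleton.elim _ _)

end Main

end Fermat.Agent.S26.H538
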