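import Fermat.Agent.S26.C4.Spec
import Fermat.Agent.S26.H538.C4cSum

/-!
# Row S26, block CUBE, leaf C4c in the exact shapes of `Fermat/Agent/S26/C4/Spec.lean`
(helper538; interface of assembler helper478)
-/

set_option autoImplicit false
universe u

open CategoryTheory CategoryTheory.Limits AlgebraicGeometry NeronModelInfra GoodReductionJacobian

namespace Fermat.Agent.S26.H538

/-- **C4c, sums** (exact `C4.Stmt.C4cSum`). -/
theorem stmt_c4cSum (K : Type u) [Field K] [IsAlgClosed K] : C4.Stmt.C4cSum K := by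
  intro X B hBc hBi h0 C c _ _ ι hι c₀ hc₀
  exact c4cSum X c ι hι B hBc hBi h0 c₀ hc₀

/-- **C4c, chains** (exact `C4.Stmt.C4cChain`). -/
theorem stmt_c4cChain (K : Type u) [Field K] [IsAlgClosed K] : C4.Stmt.C4cChain K :=
  fun X => c4cChain X

end Fermat.Agent.S26.H538
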